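import Mathlib

/-!
# S53: gauge fixing for `2 × 2` matrix representations over local rings

Pure matrix algebra.  A representation `r : Γ →* M₂(A)` is *in gauge* (with respect to
`g₁ g₂ : Γ`, an entry `(i, j)` and a constant `β`) if `r g₁` has first column `(0, 1)ᵀ` and
`(r g₂) i j = β`.

* `eq_of_conj`: two conjugate representations in gauge with the same residual representation
  are equal (uniqueness).
* `exists_conj_col`, `exists_conj_entry`: existence of a conjugating matrix (Hensel).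
-/

set_option autoImplicit false

namespace Fermat.Agent.S53.Gauge

open IsLocalRing Matrix

variable {Γ : Type*} [Monoid Γ] {A : Type*} [CommRing A]

/-- Conjugation of a matrix representation by an invertible matrix. -/
def conj (g : (Matrix (Fin 2) (Fin 2) A)ˣ) (r : Γ →* Matrix (Fin 2) (Fin 2) A) :
    Γ →* Matrix (Fin 2) (Fin 2) A where
  toFun σ := (g : Matrix (Fin 2) (Fin 2) A) * r σ * ((g⁻¹ : (Matrix (Fin 2) (Fin 2) A)ˣ) :
    Matrix (Fin 2) (Fin 2) A)
  map_one' := by simp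
  map_mul' σ τ := by
    have h : ((g⁻¹ : (Matrix (Fin 2) (Fin 2) A)ˣ) : Matrix (Fin 2) (Fin 2) A) *
        (g : Matrix (Fin 2) (Fin 2) A) = 1 := by simp
    rw [map_mul]
    calc (g : Matrix (Fin 2) (Fin 2) A) * (r σ * r τ) * ↑g⁻¹
        = ↑g * r σ * (((g⁻¹ : (Matrix (Fin 2) (Fin 2) A)ˣ) : Matrix (Fin 2) (Fin 2) A) *
            (g : Matrix (Fin 2) (Fin 2) A)) * r τ * ↑g⁻¹ := by
          rw [h, mul_one]; simp only [mul_assoc]
      _ = ↑g * r σ * ↑g⁻¹ * (↑g * r τ * ↑g⁻¹) := by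
          simp only [mul_assoc]

theorem conj_apply (g : (Matrix (Fin 2) (Fin 2) A)ˣ) (r : Γ →* Matrix (Fin 2) (Fin 2) A) (σ : Γ) :
    conj g r σ = (g : Matrix (Fin 2) (Fin 2) A) * r σ *
      ((g⁻¹ : (Matrix (Fin 2) (Fin 2) A)ˣ) : Matrix (Fin 2) (Fin 2) A) := rfl

theorem conj_mul_eq (g : (Matrix (Fin 2) (Fin 2) A)ˣ) (r : Γ →* Matrix (Fin 2) (Fin 2) A) (σ : Γ) :
    (g : Matrix (Fin 2) (Fin 2) A) * r σ = conj g r σ * g := by
  rw [conj_apply, mul_assoc, Units.inv_mul, mul_one]

section Unique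

variable [IsLocalRing A]

theorem isUnit_add_of_mem {x y : A} (hx : IsUnit x) (hy : y ∈ maximalIdeal A) : IsUnit (x + y) := by
  by_contra h
  have h1 : x + y ∈ maximalIdeal A := (mem_maximalIdeal _).mpr h
  have h2 : x ∈ maximalIdeal A := by
    have := (maximalIdeal A).sub_mem h1 hy
    simpa using this
  exact (mem_maximalIdeal _).mp h2 hx

/-- Uniqueness of the gauge: two conjugate representations, both in gauge, with the same
residual representation (which satisfies Schur's lemma mod `m`), are equal. -/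
theorem eq_of_conj (r r' : Γ →* Matrix (Fin 2) (Fin 2) A) (g₁ g₂ : Γ) (i j : Fin 2)
    (h00 : r g₁ 0 0 = 0) (h10 : r g₁ 1 0 = 1) (h00' : r' g₁ 0 0 = 0) (h10' : r' g₁ 1 0 = 1)
    (hij : r g₂ i j = r' g₂ i j)
    (hcomm : IsUnit ((r g₁ * r g₂ - r g₂ * r g₁) i j))
    (hres : ∀ σ i j, r σ i j - r' σ i j ∈ maximalIdeal A)
    (hschur : ∀ X : Matrix (Fin 2) (Fin 2) A,
      (∀ σ i j, (X * r σ - r σ * X) i j ∈ maximalIdeal A) → X 1 0 ∈ maximalIdeal A)
    (g : (Matrix (Fin 2) (Fin 2) A)ˣ)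
    (hg : ∀ σ, (g : Matrix (Fin 2) (Fin 2) A) * r σ = r' σ * g) : r = r' := by
  set G : Matrix (Fin 2) (Fin 2) A := (g : Matrix (Fin 2) (Fin 2) A) with hG
  set a := r g₁ with ha
  set a' := r' g₁ with ha'
  have hga : G * a = a' * G := hg g₁
  -- entries of `G`
  have e00 : G 0 1 = a' 0 1 * G 1 0 := by
    have := congrFun (congrFun hga 0) 0
    simp only [Matrix.mul_apply, Fin.sum_univ_two, h00, h10, h00'] at this
    simpa using this
  have e10 : G 1 1 = G 0 0 + a' 1 1 * G 1 0 := by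
    have := congrFun (congrFun hga 1) 0
    simp only [Matrix.mul_apply, Fin.sum_univ_two, h00, h10, h10'] at this
    simpa using this
  have hGform : G = G 0 0 • (1 : Matrix (Fin 2) (Fin 2) A) + G 1 0 • a' := by
    ext k l
    fin_cases k <;> fin_cases l
    · simp [h00']
    · simp [e00, mul_comm]
    · simp [h10']
    · simp [e10, mul_comm]
  have hGa' : G * a' = a' * G := by
    rw [hGform]
    simp only [add_mul, mul_add, Matrix.smul_mul, Matrix.mul_smul, one_mul, mul_one]
  have haa' : a = a' := by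
    have h1 : G * a = G * a' := by rw [hga, hGa']
    have h2 : ((g⁻¹ : (Matrix (Fin 2) (Fin 2) A)ˣ) : Matrix (Fin 2) (Fin 2) A) * (G * a) =
        ((g⁻¹ : (Matrix (Fin 2) (Fin 2) A)ˣ) : Matrix (Fin 2) (Fin 2) A) * (G * a') := by rw [h1]
    simpa [hG, ← mul_assoc] using h2
  -- `s := G 1 0` lies in the maximal ideal
  have hs : G 1 0 ∈ maximalIdeal A := by
    apply hschur G
    intro σ k l
    have : G * r σ - r σ * G = (r' σ - r σ) * G := by rw [hg σ, sub_mul]
    rw [this, Matrix.mul_apply]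
    refine Ideal.sum_mem _ fun m _ => Ideal.mul_mem_right _ _ ?_
    have := hres σ k m
    rw [Matrix.sub_apply, ← neg_sub]
    exact (maximalIdeal A).neg_mem this
  -- `p := G 0 0` is a unit
  have hp : IsUnit (G 0 0) := by
    have hdet : IsUnit G.det := (Matrix.isUnit_iff_isUnit_det G).mp g.isUnit
    rw [Matrix.det_fin_two, e00, e10] at hdet
    by_contra hp
    have hp' : G 0 0 ∈ maximalIdeal A := (mem_maximalIdeal _).mpr hp
    have : G 0 0 * (G 0 0 + a' 1 1 * G 1 0) - a' 0 1 * G 1 0 * G 1 0 ∈ maximalIdeal A :=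
      (maximalIdeal A).sub_mem (Ideal.mul_mem_right _ _ hp') (Ideal.mul_mem_left _ _ hs)
    exact (mem_maximalIdeal _).mp this hdet
  -- use `g₂`
  set b := r g₂ with hb
  set b' := r' g₂ with hb'
  have hgb : G * b = b' * G := hg g₂
  have hs0 : G 1 0 = 0 := by
    have h1 : G 0 0 • (b - b') = G 1 0 • (b' * a - a * b) := by
      have h2 : G * b - b' * G = 0 := by rw [hgb, sub_self]
      rw [hGform, ← haa'] at h2
      simp only [add_mul, mul_add, Matrix.smul_mul, Matrix.mul_smul, one_mul, mul_one] at h2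
      have h3 : G 0 0 • (b - b') - G 1 0 • (b' * a - a * b) =
          G 0 0 • b + G 1 0 • (a * b) - (G 0 0 • b' + G 1 0 • (b' * a)) := by
        simp only [smul_sub]; abel
      rw [← sub_eq_zero, h3, h2]
    have h4 := congrFun (congrFun h1 i) j
    simp only [Matrix.smul_apply, Matrix.sub_apply, smul_eq_mul] at h4
    rw [show b i j - b' i j = 0 from sub_eq_zero.mpr hij, mul_zero] at h4
    have hu : IsUnit ((b' * a) i j - (a * b) i j) := by
      have h5 : (b' * a) i j - (a * b) i j =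
          -((a * b - b * a) i j) + ((b' - b) * a) i j := by
        simp only [Matrix.sub_apply, Matrix.sub_mul]; ring
      rw [h5]
      refine isUnit_add_of_mem hcomm.neg ?_
      rw [Matrix.mul_apply]
      refine Ideal.sum_mem _ fun m _ => Ideal.mul_mem_right _ _ ?_
      have := hres g₂ i m
      rw [Matrix.sub_apply, ← neg_sub]
      exact (maximalIdeal A).neg_mem this
    exact (hu.mul_left_eq_zero).mp h4.symm
  -- conclude
  have hGscalar : G = G 0 0 • (1 : Matrix (Fin 2) (Fin 2) A) := by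
    conv_lhs => rw [hGform, hs0, zero_smul, add_zero]
  refine MonoidHom.ext fun σ => ?_
  have h1 := hg σ
  rw [hGscalar] at h1
  simp only [Matrix.smul_mul, Matrix.mul_smul, one_mul, mul_one] at h1
  obtain ⟨u, hu⟩ := hp
  have h2 : (↑u⁻¹ : A) • (G 0 0 • r σ) = (↑u⁻¹ : A) • (G 0 0 • r' σ) := by rw [h1]
  rw [← hu, smul_smul, smul_smul, Units.inv_mul, one_smul, one_smul] at h2
  exact h2

end Unique

section Exists

variable [IsLocalRing A]

/-- First gauge step: conjugate so that the first column of `a` becomes `(0, 1)ᵀ`. -/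
theorem exists_conj_col (a : Matrix (Fin 2) (Fin 2) A) (h00 : a 0 0 ∈ maximalIdeal A)
    (h10 : a 1 0 - 1 ∈ maximalIdeal A) :
    ∃ g : (Matrix (Fin 2) (Fin 2) A)ˣ,
      (∀ k l, ((g : Matrix (Fin 2) (Fin 2) A) - 1) k l ∈ maximalIdeal A) ∧
      ((g : Matrix (Fin 2) (Fin 2) A) * a *
        ((g⁻¹ : (Matrix (Fin 2) (Fin 2) A)ˣ) : Matrix (Fin 2) (Fin 2) A)) 0 0 = 0 ∧
      ((g : Matrix (Fin 2) (Fin 2) A) * a *
        ((g⁻¹ : (Matrix (Fin 2) (Fin 2) A)ˣ) : Matrix (Fin 2) (Fin 2) A)) 1 0 = 1 := by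
  have hu : IsUnit (a 1 0) := by
    have : a 1 0 = 1 + (a 1 0 - 1) := by ring
    rw [this]; exact isUnit_add_of_mem isUnit_one h10
  obtain ⟨u, hu⟩ := hu
  set v : A := ↑u⁻¹ with hv
  have huv : a 1 0 * v = 1 := by rw [← hu]; exact u.mul_inv
  have hvu : v * a 1 0 = 1 := by rw [mul_comm]; exact huv
  let G : Matrix (Fin 2) (Fin 2) A := !![1, -(a 0 0) * v; 0, v]
  let H : Matrix (Fin 2) (Fin 2) A := !![1, a 0 0; 0, a 1 0]
  have hGH : G * H = 1 := by
    ext k l
    fin_cases k <;> fin_cases l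
    · simp [G, H, Matrix.mul_apply, Fin.sum_univ_two]
    · simp [G, H, Matrix.mul_apply, Fin.sum_univ_two]
      linear_combination (-(a 0 0)) * hvu
    · simp [G, H, Matrix.mul_apply, Fin.sum_univ_two]
    · simp [G, H, Matrix.mul_apply, Fin.sum_univ_two]
      exact hvu
  have hHG : H * G = 1 := by
    ext k l
    fin_cases k <;> fin_cases l
    · simp [G, H, Matrix.mul_apply, Fin.sum_univ_two]
    · simp [G, H, Matrix.mul_apply, Fin.sum_univ_two]
    · simp [G, H, Matrix.mul_apply, Fin.sum_univ_two]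
    · simp [G, H, Matrix.mul_apply, Fin.sum_univ_two]
      exact huv
  refine ⟨⟨G, H, hGH, hHG⟩, ?_, ?_, ?_⟩
  · intro k l
    fin_cases k <;> fin_cases l
    · simp [G]
    · simp only [G]
      simpa using Ideal.mul_mem_right v _ h00
    · simp [G]
    · have : v - 1 = -(v * (a 1 0 - 1)) := by linear_combination hvu
      simp only [G]
      simpa [this] using Ideal.mul_mem_left _ v h10
  · show (G * a * H) 0 0 = 0
    have e1 : (G * a * H) 0 0 = (G 0 0 * a 0 0 + G 0 1 * a 1 0) * H 0 0 +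
        (G 0 0 * a 0 1 + G 0 1 * a 1 1) * H 1 0 := by
      simp only [Matrix.mul_apply, Fin.sum_univ_two]
    rw [e1]
    simp [G, H]
    linear_combination (-(a 0 0)) * hvu
  · show (G * a * H) 1 0 = 1
    have e1 : (G * a * H) 1 0 = (G 1 0 * a 0 0 + G 1 1 * a 1 0) * H 0 0 +
        (G 1 0 * a 0 1 + G 1 1 * a 1 1) * H 1 0 := by
      simp only [Matrix.mul_apply, Fin.sum_univ_two]
    rw [e1]
    simp [G, H]
    exact hvu

open Polynomial in
/-- Second gauge step: conjugate by `1 + t • a` (which commutes with `a`) so that the `(i, j)`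
entry of `b` becomes `β`.  Uses Hensel's lemma for a quadratic equation. -/
theorem exists_conj_entry [HenselianRing A (maximalIdeal A)] (a b : Matrix (Fin 2) (Fin 2) A)
    (i j : Fin 2) (β : A) (hβ : b i j - β ∈ maximalIdeal A)
    (hcomm : IsUnit ((a * b - b * a) i j)) :
    ∃ g : (Matrix (Fin 2) (Fin 2) A)ˣ,
      (∀ k l, ((g : Matrix (Fin 2) (Fin 2) A) - 1) k l ∈ maximalIdeal A) ∧
      (g : Matrix (Fin 2) (Fin 2) A) * a = a * g ∧
      ((g : Matrix (Fin 2) (Fin 2) A) * b *
        ((g⁻¹ : (Matrix (Fin 2) (Fin 2) A)ˣ) : Matrix (Fin 2) (Fin 2) A)) i j = β := by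
  set τ : A := a.trace with hτ
  set δ : A := a.det with hδ
  set F0 : A := b i j - β with hF0
  set F1 : A := (a * b - b * a) i j + τ * F0 with hF1
  set F2 : A := (τ • (a * b) - a * b * a) i j - β * δ with hF2
  have hF1u : IsUnit F1 := isUnit_add_of_mem hcomm (Ideal.mul_mem_left _ _ hβ)
  -- Hensel
  let f : A[X] := X ^ 2 + C F1 * X + C (F0 * F2)
  have hmonic : f.Monic := by
    simp only [f]
    monicity!
  have hev : f.eval (-F1) ∈ maximalIdeal A := by
    have : f.eval (-F1) = F0 * F2 := by simp [f]; ring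
    rw [this]; exact Ideal.mul_mem_right _ _ hβ
  have hder : IsUnit (Ideal.Quotient.mk (maximalIdeal A) (f.derivative.eval (-F1))) := by
    have : f.derivative.eval (-F1) = -F1 := by simp [f]; ring
    rw [this]; exact (hF1u.neg).map _
  obtain ⟨w, hw, hw0⟩ := HenselianRing.is_henselian f hmonic (-F1) hev hder
  have hwu : IsUnit w := by
    have : w = -F1 + (w - -F1) := by ring
    rw [this]; exact isUnit_add_of_mem hF1u.neg hw0
  have hweq : w ^ 2 + F1 * w + F0 * F2 = 0 := by
    have := hw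
    simp only [f, IsRoot.def, eval_add, eval_mul, eval_pow, eval_X, eval_C] at this
    exact this
  obtain ⟨wu, hwu'⟩ := hwu
  set t : A := F0 * ↑wu⁻¹ with ht
  have htm : t ∈ maximalIdeal A := Ideal.mul_mem_right _ _ hβ
  have hwinv : w * ↑wu⁻¹ = 1 := by rw [← hwu']; exact wu.mul_inv
  have hkey : F2 * t ^ 2 + F1 * t + F0 = 0 := by
    have h1 : F2 * t ^ 2 + F1 * t + F0 =
        F0 * (↑wu⁻¹ : A) ^ 2 * (w ^ 2 + F1 * w + F0 * F2) +
          (F0 * (1 - (w * ↑wu⁻¹) ^ 2) + F1 * F0 * ↑wu⁻¹ * (1 - w * ↑wu⁻¹)) := by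
      simp only [ht]; ring
    rw [h1, hweq, hwinv]; ring
  -- the conjugating matrix
  set d : A := 1 + t * τ + t ^ 2 * δ with hd
  have hdu : IsUnit d := by
    have : d = 1 + (t * τ + t ^ 2 * δ) := by ring
    rw [this]
    refine isUnit_add_of_mem isUnit_one ((maximalIdeal A).add_mem (Ideal.mul_mem_right _ _ htm) ?_)
    rw [pow_two, mul_assoc]; exact Ideal.mul_mem_right _ _ htm
  obtain ⟨du, hdu'⟩ := hdu
  let Gm : Matrix (Fin 2) (Fin 2) A := 1 + t • a
  let adj : Matrix (Fin 2) (Fin 2) A := (1 + t * τ) • (1 : Matrix (Fin 2) (Fin 2) A) - t • a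
  have h1 : Gm * adj = d • (1 : Matrix (Fin 2) (Fin 2) A) := by
    ext k l
    fin_cases k <;> fin_cases l <;>
      simp [Gm, adj, hd, hτ, hδ, Matrix.mul_apply, Fin.sum_univ_two, Matrix.trace_fin_two,
        Matrix.det_fin_two] <;> ring
  have h2 : adj * Gm = d • (1 : Matrix (Fin 2) (Fin 2) A) := by
    ext k l
    fin_cases k <;> fin_cases l <;>
      simp [Gm, adj, hd, hτ, hδ, Matrix.mul_apply, Fin.sum_univ_two, Matrix.trace_fin_two,
        Matrix.det_fin_two] <;> ring
  have hdinv : (↑du⁻¹ : A) * d = 1 := by rw [← hdu']; exact du.inv_mul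
  have hGinv : Gm * ((↑du⁻¹ : A) • adj) = 1 := by
    rw [Matrix.mul_smul, h1, smul_smul, hdinv, one_smul]
  have hinvG : ((↑du⁻¹ : A) • adj) * Gm = 1 := by
    rw [Matrix.smul_mul, h2, smul_smul, hdinv, one_smul]
  refine ⟨⟨Gm, (↑du⁻¹ : A) • adj, hGinv, hinvG⟩, ?_, ?_, ?_⟩
  · intro k l
    show (Gm - 1) k l ∈ maximalIdeal A
    have : Gm - 1 = t • a := by simp [Gm]
    rw [this, Matrix.smul_apply, smul_eq_mul]
    exact Ideal.mul_mem_right _ _ htm
  · show Gm * a = a * Gm
    simp [Gm, add_mul, mul_add]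
  · show (Gm * b * ((↑du⁻¹ : A) • adj)) i j = β
    have h3 : Gm * b * adj =
        b + t • (τ • b + a * b - b * a) + (t ^ 2) • (τ • (a * b) - a * b * a) := by
      ext k l
      fin_cases k <;> fin_cases l <;>
        simp [Gm, adj, hτ, Matrix.mul_apply, Fin.sum_univ_two, Matrix.trace_fin_two] <;> ring
    rw [Matrix.mul_smul, Matrix.smul_apply, h3, smul_eq_mul]
    have h4 : (b + t • (τ • b + a * b - b * a) + (t ^ 2) • (τ • (a * b) - a * b * a)) i j =
        β * d + (F2 * t ^ 2 + F1 * t + F0) := by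
      simp only [hF0, hF1, hF2, hd, Matrix.add_apply, Matrix.sub_apply, Matrix.smul_apply,
        smul_eq_mul]
      ring
    rw [h4, hkey, add_zero]
    linear_combination β * hdinv

end Exists

end Fermat.Agent.S53.Gauge
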