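import Fermat.Agent.S53.GoodLemmas
import Fermat.Agent.S53.H96.Statement
import Fermat.Agent.S53.H99.Push
import Fermat.Agent.S53.H99.Pt
import Fermat.Agent.S53.H74.Glue
import Fermat.Agent.S53.H58.Tan
import Fermat.Agent.S53.H13.Cont

/-!
# S53: final assembly from the abstract representability statement
-/

set_option autoImplicit false

namespace Fermat.Agent.S53

open IsLocalRing Fermat.Agent.S53.H85

theorem nonempty_deformationRingData_of_abstract
    (𝒪 : Type) [CommRing 𝒪] [IsDomain 𝒪] [IsDiscreteValuationRing 𝒪]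
    [IsAdicComplete (maximalIdeal 𝒪) 𝒪] [Finite (ResidueField 𝒪)]
    (habstract : H96.AbstractStatement 𝒪)
    (ρbar : ResidualGaloisRep (ResidueField 𝒪))
    (𝒟 : ∀ ⦃A : Type⦄ [CommRing A] [IsLocalRing A] [Algebra 𝒪 A], GaloisRepAdic A → Prop)
    (habs : ρbar.IsAbsolutelyIrreducible)
    (h𝒟 : GaloisRep.IsDeformationCondition 𝒪 𝒟)
    (hbar : 𝒟 (GaloisRepAdic.ofResidualGaloisRep ρbar))
    (hfin : GaloisRep.TangentFinite 𝒪 ρbar 𝒟) :
    Nonempty (GaloisRep.DeformationRingData 𝒪 ρbar 𝒟) := by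
  obtain ⟨b, γ, hγ⟩ := exists_valid_gauge ρbar habs
  obtain ⟨R, _, _, _, _, _, hloc, hres, xu, hxu, huniv⟩ :=
    habstract XX (fun A _ _ _ => F 𝒟 γ A)
      (fun A B _ _ _ _ _ _ hA hB φ x hx => H99.F_push h𝒟 A B hA hB φ x hx)
      (fun A B C _ _ _ _ _ _ _ _ _ hA hB hC pA pB hinj z hzA hzB =>
        H74.F_glue h𝒟 A B C hA hB hC pA pB hinj z hzA hzB)
      (H99.F_pt hγ h𝒟 hbar) (H58.F_tan hγ h𝒟 hfin)
      (fun A _ _ _ _ _ hloc hres x => H13.F_cont h𝒟 A hloc hres x)
  obtain ⟨ru, hru_entries, hru⟩ := hxu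
  haveI := hloc
  refine ⟨{ R := R
            residue_surjective := hres
            absIrr := habs
            ρ := ofMat ru hru.cont
            isOfType := hru.cond
            residual_isEquiv := good_residual hγ R ru hru
            universal := ?_ }⟩
  intro A _ _ _ _ _ hlocA hresA ρA hρA hresidA
  obtain ⟨rA, hrA, hequiv⟩ := exists_good_lift hγ h𝒟 A hresA ρA hρA hresidA
  have hxA : (fun p : XX => rA p.1 p.2.1 p.2.2) ∈ F 𝒟 γ A := ⟨rA, fun _ _ _ => rfl, hrA⟩
  obtain ⟨φ, hφ, hφuniq⟩ := huniv A hlocA hresA _ hxA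
  have key : ∀ ψ : R →ₐ[𝒪] A, (fun i => ψ (xu i)) = (fun p : XX => rA p.1 p.2.1 p.2.2) ↔
      mapMat (ψ : R →+* A) ru = rA := by
    intro ψ
    constructor
    · intro h
      refine MonoidHom.ext fun σ => ?_
      ext i j
      have := congrFun h (σ, i, j)
      simpa [mapMat_apply, hru_entries] using this
    · intro h
      funext p
      obtain ⟨σ, i, j⟩ := p
      have := congrFun (congrFun (DFunLike.congr_fun h σ) i) j
      simpa [mapMat_apply, hru_entries] using this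
  have hlocφ : ∀ ψ : R →ₐ[𝒪] A, IsLocalHom (ψ : R →+* A) := fun ψ =>
    H96.isLocalHom_of_residue_surjective hresA ψ
  refine ⟨φ, ⟨hlocφ φ, ?_⟩, ?_⟩
  · have h1 := baseChangeAlong_ofMat_isEquiv (φ : R →+* A) (hlocφ φ) hru.cont
      (matCont_mapMat _ (hlocφ φ) hru.cont)
    refine isEquiv_trans h1 ?_
    exact ofMat_congr (fun ρ => ρ.IsEquiv ρA) ((key φ).mp hφ).symm hrA.cont _ hequiv
  · rintro φ' ⟨hφ', hequiv'⟩
    apply hφuniq
    rw [key]
    have hc' : MatCont (mapMat (φ' : R →+* A) ru) := matCont_mapMat _ hφ' hru.cont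
    have h1 := baseChangeAlong_ofMat_isEquiv (φ' : R →+* A) hφ' hru.cont hc'
    have h2 : (ofMat (mapMat (φ' : R →+* A) ru) hc').IsEquiv ρA :=
      isEquiv_trans (isEquiv_symm h1) hequiv'
    have hgood : IsGood 𝒟 γ A (mapMat (φ' : R →+* A) ru) :=
      good_map_of_cond R A φ' hφ' ru hru (fun hc =>
        cond_of_isEquiv h𝒟 A hlocA hresA (isEquiv_symm h2) hρA)
    exact good_unique hγ A hresA _ _ hgood hrA (isEquiv_trans h2 (isEquiv_symm hequiv))

end Fermat.Agent.S53
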