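import Mathlib
import Fermat.Prelude.Def_GaloisRep_DeformationRingData
import Fermat.Prelude.Def_GaloisRep_DeformationCondition

/-!
# S53: shared definitions for the Galois side

Matrix-valued representations of the absolute Galois group and the `GaloisRepAdic`
attached to them.
-/

set_option autoImplicit false

namespace Fermat.Agent.S53

/-- The absolute Galois group of `ℚ`. -/
abbrev GQ : Type := AlgebraicClosure ℚ ≃ₐ[ℚ] AlgebraicClosure ℚ

/-- `2 × 2` matrices. -/
abbrev M2 (A : Type) : Type := Matrix (Fin 2) (Fin 2) A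

/-- Adic continuity of a matrix-valued representation. -/
def MatCont {A : Type} [CommRing A] [IsLocalRing A] (r : GQ →* M2 A) : Prop :=
  ∀ n : ℕ, ∃ L : IntermediateField ℚ (AlgebraicClosure ℚ), FiniteDimensional ℚ L ∧
    ∀ σ : GQ, (∀ x ∈ L, σ x = x) → ∀ i j, (r σ - 1) i j ∈ IsLocalRing.maximalIdeal A ^ n

/-- Push a matrix-valued representation forward along a ring homomorphism. -/
noncomputable def mapMat {A B : Type} [CommRing A] [CommRing B] (φ : A →+* B) (r : GQ →* M2 A) : GQ →* M2 B :=
  (RingHom.mapMatrix φ : M2 A →+* M2 B).toMonoidHom.comp r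

@[simp]
theorem mapMat_apply {A B : Type} [CommRing A] [CommRing B] (φ : A →+* B) (r : GQ →* M2 A)
    (σ : GQ) (i j : Fin 2) : mapMat φ r σ i j = φ (r σ i j) := rfl

/-- The action of a matrix-valued representation on column vectors. -/
noncomputable def matAction {A : Type} [CommRing A] (r : GQ →* M2 A) :
    GQ →* Module.End A (Fin 2 → A) :=
  (Matrix.toLinAlgEquiv' : M2 A ≃ₐ[A] Module.End A (Fin 2 → A)).toAlgHom.toRingHom.toMonoidHom.comp r

@[simp]
theorem matAction_apply {A : Type} [CommRing A] (r : GQ →* M2 A) (σ : GQ) (v : Fin 2 → A) :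
    matAction r σ v = (r σ).mulVec v := rfl

theorem mem_pow_smul_top_of_forall {A : Type} [CommRing A] (I : Ideal A) (v : Fin 2 → A)
    (hv : ∀ i, v i ∈ I) : v ∈ I • (⊤ : Submodule A (Fin 2 → A)) := by
  have : v = ∑ i, v i • (Pi.single i (1 : A) : Fin 2 → A) := by
    ext j
    simp [Finset.sum_apply, Pi.single_apply]
  rw [this]
  exact Submodule.sum_mem _ fun i _ => Submodule.smul_mem_smul (hv i) Submodule.mem_top

/-- The `GaloisRepAdic` attached to a continuous matrix-valued representation. -/
noncomputable def ofMat {A : Type} [CommRing A] [IsLocalRing A] (r : GQ →* M2 A)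
    (hr : MatCont r) : GaloisRepAdic A where
  V := Fin 2 → A
  finrank_eq := by simp
  ρ := matAction r
  isAdicContinuous := by
    intro n
    obtain ⟨L, hL, h⟩ := hr n
    refine ⟨L, hL, fun σ hσ v => ?_⟩
    apply mem_pow_smul_top_of_forall
    intro i
    have h1 : (matAction r σ v - v) i = ((r σ - 1).mulVec v) i := by
      simp [Matrix.sub_mulVec]
    rw [h1, Matrix.mulVec, dotProduct]
    exact Ideal.sum_mem _ fun j _ => Ideal.mul_mem_right _ _ (h σ hσ i j)

@[simp]
theorem ofMat_ρ_apply {A : Type} [CommRing A] [IsLocalRing A] (r : GQ →* M2 A)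
    (hr : MatCont r) (σ : GQ) (v : Fin 2 → A) : (ofMat r hr).ρ σ v = (r σ).mulVec v := rfl

/-- The matrix-valued representation attached to a residual representation and a basis. -/
noncomputable def rbarOf {k : Type} [Field k] (ρbar : ResidualGaloisRep k)
    (b : Module.Basis (Fin 2) k ρbar.V) : GQ →* M2 k :=
  (LinearMap.toMatrixAlgEquiv b : Module.End k ρbar.V ≃ₐ[k] M2 k).toAlgHom.toRingHom.toMonoidHom.comp
    ρbar.ρ

@[simp]
theorem rbarOf_apply {k : Type} [Field k] (ρbar : ResidualGaloisRep k)
    (b : Module.Basis (Fin 2) k ρbar.V) (σ : GQ) :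
    rbarOf ρbar b σ = LinearMap.toMatrix b b (ρbar.ρ σ) := rfl

end Fermat.Agent.S53
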