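import Fermat.Agent.S53.Defs

/-!
# S53: gauge-fixed lifts of type `𝒟` ("good lifts") and the functor `F`
-/

set_option autoImplicit false

namespace Fermat.Agent.S53

open IsLocalRing

/-- Gauge data: a set-theoretic lift `rt` of the residual matrices to `𝒪`, two group elements and
an entry. -/
structure Gauge (𝒪 : Type) where
  /-- set-theoretic lift of the residual matrix representation -/
  rt : GQ → M2 𝒪
  /-- first gauge element -/
  g₁ : GQ
  /-- second gauge element -/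
  g₂ : GQ
  /-- row index -/
  i : Fin 2
  /-- column index -/
  j : Fin 2

/-- Validity of gauge data with respect to a residual representation and a basis. -/
structure Gauge.IsValid {𝒪 : Type} [CommRing 𝒪] [IsLocalRing 𝒪] (γ : Gauge 𝒪)
    (ρbar : ResidualGaloisRep (ResidueField 𝒪))
    (b : Module.Basis (Fin 2) (ResidueField 𝒪) ρbar.V) : Prop where
  hrt : ∀ σ i j, residue 𝒪 (γ.rt σ i j) = rbarOf ρbar b σ i j
  schur : ∀ X : M2 (ResidueField 𝒪), (∀ σ, X * rbarOf ρbar b σ = rbarOf ρbar b σ * X) →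
    ∃ c : ResidueField 𝒪, X = Matrix.scalar (Fin 2) c
  h00 : rbarOf ρbar b γ.g₁ 0 0 = 0
  h10 : rbarOf ρbar b γ.g₁ 1 0 = 1
  hcomm : (rbarOf ρbar b γ.g₁ * rbarOf ρbar b γ.g₂ -
    rbarOf ρbar b γ.g₂ * rbarOf ρbar b γ.g₁) γ.i γ.j ≠ 0

/-- A *good lift* over a local `𝒪`-algebra `A`: a continuous matrix representation lifting the
residual one, in gauge, and of type `𝒟`. -/
structure IsGood {𝒪 : Type} [CommRing 𝒪]
    (𝒟 : ∀ ⦃A : Type⦄ [CommRing A] [IsLocalRing A] [Algebra 𝒪 A], GaloisRepAdic A → Prop)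
    (γ : Gauge 𝒪) (A : Type) [CommRing A] [IsLocalRing A] [Algebra 𝒪 A]
    (r : GQ →* M2 A) : Prop where
  lift : ∀ σ i j, r σ i j - algebraMap 𝒪 A (γ.rt σ i j) ∈ maximalIdeal A
  g00 : r γ.g₁ 0 0 = 0
  g10 : r γ.g₁ 1 0 = 1
  gij : r γ.g₂ γ.i γ.j = algebraMap 𝒪 A (γ.rt γ.g₂ γ.i γ.j)
  cont : MatCont r
  cond : 𝒟 (ofMat r cont)

/-- The index set of matrix entries. -/
abbrev XX : Type := GQ × Fin 2 × Fin 2

/-- The functor of good lifts, as sets of families of matrix entries. -/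
def F {𝒪 : Type} [CommRing 𝒪]
    (𝒟 : ∀ ⦃A : Type⦄ [CommRing A] [IsLocalRing A] [Algebra 𝒪 A], GaloisRepAdic A → Prop)
    (γ : Gauge 𝒪) (A : Type) [CommRing A] [IsLocalRing A] [Algebra 𝒪 A] : Set (XX → A) :=
  {x | ∃ r : GQ →* M2 A, (∀ σ i j, r σ i j = x (σ, i, j)) ∧ IsGood 𝒟 γ A r}

end Fermat.Agent.S53
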