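import Fermat.Agent.S53.Good
import Fermat.Agent.S53.Gauge
import Fermat.Agent.S53.H85.PackageM
import Fermat.Agent.S53.H96.TestAlg
import Fermat.Agent.S53.H34.GaugeBasis

/-!
# S53: basic lemmas on good lifts
-/

set_option autoImplicit false
set_option linter.unusedSectionVars false

namespace Fermat.Agent.S53

open IsLocalRing Fermat.Agent.S53.H85

/-! ### Generalities on `GaloisRepAdic.IsEquiv` -/

theorem isEquiv_symm {A : Type} [CommRing A] [IsLocalRing A] {ρ ρ' : GaloisRepAdic A}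
    (h : ρ.IsEquiv ρ') : ρ'.IsEquiv ρ :=
  h.elim fun e => ⟨e.symm⟩

theorem isEquiv_trans {A : Type} [CommRing A] [IsLocalRing A] {ρ ρ' ρ'' : GaloisRepAdic A}
    (h : ρ.IsEquiv ρ') (h' : ρ'.IsEquiv ρ'') : ρ.IsEquiv ρ'' :=
  h.elim fun e => h'.elim fun e' => ⟨e.trans e'⟩

theorem isEquiv_baseChangeAlong {A B : Type} [CommRing A] [IsLocalRing A] [CommRing B]
    [IsLocalRing B] (φ : A →+* B) (hφ : IsLocalHom φ) {ρ ρ' : GaloisRepAdic A}
    (h : ρ.IsEquiv ρ') : (ρ.baseChangeAlong φ hφ).IsEquiv (ρ'.baseChangeAlong φ hφ) :=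
  h.elim fun e => ⟨e.baseChangeAlong φ hφ⟩

/-- `ofMat` only depends on the matrix representation. -/
theorem ofMat_congr {A : Type} [CommRing A] [IsLocalRing A]
    (P : GaloisRepAdic A → Prop) {r r' : GQ →* M2 A} (h : r = r') (hr : MatCont r)
    (hr' : MatCont r') (hP : P (ofMat r hr)) : P (ofMat r' hr') := by
  subst h; exact hP

section Cond

variable {𝒪 : Type} [CommRing 𝒪] [IsLocalRing 𝒪]
  {𝒟 : ∀ ⦃A : Type⦄ [CommRing A] [IsLocalRing A] [Algebra 𝒪 A], GaloisRepAdic A → Prop}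

/-- H10: a deformation condition is invariant under equivalence over complete noetherian local
test algebras. -/
theorem cond_of_isEquiv (h𝒟 : GaloisRep.IsDeformationCondition 𝒪 𝒟)
    (A : Type) [CommRing A] [IsLocalRing A] [IsNoetherianRing A]
    [IsAdicComplete (maximalIdeal A) A] [Algebra 𝒪 A]
    (hloc : IsLocalHom (algebraMap 𝒪 A))
    (hres : Function.Surjective (residue A ∘ algebraMap 𝒪 A)) {ρ ρ' : GaloisRepAdic A}
    (e : ρ.IsEquiv ρ') (h : 𝒟 ρ) : 𝒟 ρ' := by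
  rw [h𝒟.iff_forall_surjective hloc hres] at h ⊢
  intro B _ _ _ hB q hq hsurj
  exact h𝒟.of_isEquiv hB (isEquiv_baseChangeAlong _ hq e) (h hB q hq hsurj)

end Cond

/-! ### Conjugation -/

section Conj

variable {A : Type} [CommRing A] [IsLocalRing A]

theorem map_residue_eq_one (g : (M2 A)ˣ) (hg : ∀ k l, ((g : M2 A) - 1) k l ∈ maximalIdeal A) :
    (residue A).mapMatrix (g : M2 A) = 1 := by
  have h0 : (residue A).mapMatrix ((g : M2 A) - 1) = 0 := by
    ext k l
    simpa [RingHom.mapMatrix_apply] using (residue_eq_zero_iff _).mpr (hg k l)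
  rw [map_sub, map_one, sub_eq_zero] at h0
  exact h0

theorem map_residue_inv_eq_one (g : (M2 A)ˣ)
    (hg : ∀ k l, ((g : M2 A) - 1) k l ∈ maximalIdeal A) :
    (residue A).mapMatrix ((g⁻¹ : (M2 A)ˣ) : M2 A) = 1 := by
  have h1 := map_residue_eq_one g hg
  have h2 : (residue A).mapMatrix ((g : M2 A) * ((g⁻¹ : (M2 A)ˣ) : M2 A)) = 1 := by
    rw [Units.mul_inv, map_one]
  rw [map_mul, h1, one_mul] at h2
  exact h2

/-- Conjugation by a matrix congruent to `1` does not change the residual representation. -/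
theorem conj_sub_mem (g : (M2 A)ˣ) (hg : ∀ k l, ((g : M2 A) - 1) k l ∈ maximalIdeal A)
    (r : GQ →* M2 A) (σ : GQ) (k l : Fin 2) :
    Gauge.conj g r σ k l - r σ k l ∈ maximalIdeal A := by
  have h : (residue A).mapMatrix (Gauge.conj g r σ) = (residue A).mapMatrix (r σ) := by
    rw [Gauge.conj_apply, map_mul, map_mul, map_residue_eq_one g hg,
      map_residue_inv_eq_one g hg, one_mul, mul_one]
  have h' := congrFun (congrFun h k) l
  simp only [RingHom.mapMatrix_apply, Matrix.map_apply] at h'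
  rw [← residue_eq_zero_iff, map_sub, h', sub_self]

theorem matCont_conj (g : (M2 A)ˣ) {r : GQ →* M2 A} (hr : MatCont r) :
    MatCont (Gauge.conj g r) := by
  intro n
  obtain ⟨L, hL, h⟩ := hr n
  refine ⟨L, hL, fun σ hσ k l => ?_⟩
  have h1 : Gauge.conj g r σ - 1 =
      (g : M2 A) * (r σ - 1) * ((g⁻¹ : (M2 A)ˣ) : M2 A) := by
    rw [Gauge.conj_apply, mul_sub, sub_mul, mul_one, Units.mul_inv]
  rw [h1, Matrix.mul_apply]
  refine Ideal.sum_mem _ fun m _ => Ideal.mul_mem_right _ _ ?_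
  rw [Matrix.mul_apply]
  exact Ideal.sum_mem _ fun m' _ => Ideal.mul_mem_left _ _ (h σ hσ m' m)

theorem ofMat_conj_isEquiv (g : (M2 A)ˣ) {r : GQ →* M2 A} (hr : MatCont r)
    (hr' : MatCont (Gauge.conj g r)) : (ofMat r hr).IsEquiv (ofMat (Gauge.conj g r) hr') :=
  ofMat_isEquiv_of_conj hr hr' g (fun σ => Gauge.conj_mul_eq g r σ)

end Conj

/-! ### Residual properties of lifts -/

section Lift

variable {𝒪 : Type} [CommRing 𝒪] [IsLocalRing 𝒪]
  {ρbar : ResidualGaloisRep (ResidueField 𝒪)}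
  {b : Module.Basis (Fin 2) (ResidueField 𝒪) ρbar.V} {γ : Gauge 𝒪}
  {A : Type} [CommRing A] [IsLocalRing A] [Algebra 𝒪 A] [IsLocalHom (algebraMap 𝒪 A)]

/-- A lift reduces to the base change of the residual matrices. -/
theorem residue_eq_of_lift (hγ : γ.IsValid ρbar b) {r : GQ →* M2 A}
    (hlift : ∀ σ i j, r σ i j - algebraMap 𝒪 A (γ.rt σ i j) ∈ maximalIdeal A) (σ : GQ)
    (i j : Fin 2) :
    residue A (r σ i j) = ResidueField.map (algebraMap 𝒪 A) (rbarOf ρbar b σ i j) := by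
  have h1 : residue A (r σ i j) = residue A (algebraMap 𝒪 A (γ.rt σ i j)) := by
    rw [← sub_eq_zero, ← map_sub, residue_eq_zero_iff]
    exact hlift σ i j
  rw [h1, ← hγ.hrt σ i j, ResidueField.map_residue]

theorem mapMatrix_residue_eq_of_lift (hγ : γ.IsValid ρbar b) {r : GQ →* M2 A}
    (hlift : ∀ σ i j, r σ i j - algebraMap 𝒪 A (γ.rt σ i j) ∈ maximalIdeal A) (σ : GQ) :
    (residue A).mapMatrix (r σ) =
      (ResidueField.map (algebraMap 𝒪 A)).mapMatrix (rbarOf ρbar b σ) := by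
  ext i j
  simp only [RingHom.mapMatrix_apply, Matrix.map_apply]
  exact residue_eq_of_lift hγ hlift σ i j

/-- The commutator entry of a lift is a unit. -/
theorem isUnit_comm_of_lift (hγ : γ.IsValid ρbar b) {r : GQ →* M2 A}
    (hlift : ∀ σ i j, r σ i j - algebraMap 𝒪 A (γ.rt σ i j) ∈ maximalIdeal A) :
    IsUnit ((r γ.g₁ * r γ.g₂ - r γ.g₂ * r γ.g₁) γ.i γ.j) := by
  rw [← notMem_maximalIdeal, ← residue_eq_zero_iff]
  have h : (residue A).mapMatrix (r γ.g₁ * r γ.g₂ - r γ.g₂ * r γ.g₁) =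
      (ResidueField.map (algebraMap 𝒪 A)).mapMatrix
        (rbarOf ρbar b γ.g₁ * rbarOf ρbar b γ.g₂ - rbarOf ρbar b γ.g₂ * rbarOf ρbar b γ.g₁) := by
    simp only [map_sub, map_mul, mapMatrix_residue_eq_of_lift hγ hlift]
  have h' := congrFun (congrFun h γ.i) γ.j
  simp only [RingHom.mapMatrix_apply, Matrix.map_apply] at h'
  rw [h']
  intro h0
  exact hγ.hcomm ((map_eq_zero _).mp h0)

/-- The residue field of a test algebra is the residue field of `𝒪`. -/
theorem residueField_map_bijective (A : Type) [CommRing A] [IsLocalRing A] [Algebra 𝒪 A]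
    [IsLocalHom (algebraMap 𝒪 A)]
    (hres : Function.Surjective (residue A ∘ algebraMap 𝒪 A)) :
    Function.Bijective (IsLocalRing.ResidueField.map (algebraMap 𝒪 A)) := by
  refine ⟨RingHom.injective _, fun y => ?_⟩
  obtain ⟨c, hc⟩ := hres y
  exact ⟨residue 𝒪 c, by rw [ResidueField.map_residue]; exact hc⟩

/-- Schur's lemma modulo the maximal ideal for a lift. -/
theorem schur_of_lift (hγ : γ.IsValid ρbar b)
    (hres : Function.Surjective (residue A ∘ algebraMap 𝒪 A)) {r : GQ →* M2 A}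
    (hlift : ∀ σ i j, r σ i j - algebraMap 𝒪 A (γ.rt σ i j) ∈ maximalIdeal A) (X : M2 A)
    (hX : ∀ σ i j, (X * r σ - r σ * X) i j ∈ maximalIdeal A) : X 1 0 ∈ maximalIdeal A := by
  set ψ := ResidueField.map (algebraMap 𝒪 A) with hψ
  have hbij : Function.Bijective ψ := residueField_map_bijective A hres
  -- a preimage of the reduction of `X`
  choose Y hY using fun i j => hbij.2 (residue A (X i j))
  have hYX : ψ.mapMatrix (Matrix.of Y) = (residue A).mapMatrix X := by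
    ext i j
    simp [RingHom.mapMatrix_apply, hY]
  have hcommY : ∀ σ, Matrix.of Y * rbarOf ρbar b σ = rbarOf ρbar b σ * Matrix.of Y := by
    intro σ
    have h1 : ψ.mapMatrix (Matrix.of Y * rbarOf ρbar b σ - rbarOf ρbar b σ * Matrix.of Y) = 0 := by
      rw [map_sub, map_mul, map_mul, hYX, ← mapMatrix_residue_eq_of_lift hγ hlift, ← map_mul,
        ← map_mul, ← map_sub]
      ext i j
      simpa [RingHom.mapMatrix_apply] using (residue_eq_zero_iff _).mpr (hX σ i j)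
    have h2 : Matrix.of Y * rbarOf ρbar b σ - rbarOf ρbar b σ * Matrix.of Y = 0 := by
      ext i j
      have := congrFun (congrFun h1 i) j
      simp only [RingHom.mapMatrix_apply, Matrix.map_apply, Matrix.zero_apply] at this
      exact (map_eq_zero ψ).mp this
    exact sub_eq_zero.mp h2
  obtain ⟨c, hc⟩ := hγ.schur (Matrix.of Y) hcommY
  have h10 : Y 1 0 = 0 := by
    have := congrFun (congrFun hc 1) 0
    simpa using this
  rw [← residue_eq_zero_iff, ← hY 1 0, h10, map_zero]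

/-- H7: two lifts in gauge which are conjugate are equal. -/
theorem eq_of_conj_of_lift (hγ : γ.IsValid ρbar b)
    (hres : Function.Surjective (residue A ∘ algebraMap 𝒪 A)) {r r' : GQ →* M2 A}
    (hlift : ∀ σ i j, r σ i j - algebraMap 𝒪 A (γ.rt σ i j) ∈ maximalIdeal A)
    (hlift' : ∀ σ i j, r' σ i j - algebraMap 𝒪 A (γ.rt σ i j) ∈ maximalIdeal A)
    (h00 : r γ.g₁ 0 0 = 0) (h10 : r γ.g₁ 1 0 = 1) (h00' : r' γ.g₁ 0 0 = 0)
    (h10' : r' γ.g₁ 1 0 = 1) (hij : r γ.g₂ γ.i γ.j = r' γ.g₂ γ.i γ.j)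
    (g : (M2 A)ˣ) (hg : ∀ σ, (g : M2 A) * r σ = r' σ * g) : r = r' := by
  refine Gauge.eq_of_conj r r' γ.g₁ γ.g₂ γ.i γ.j h00 h10 h00' h10' hij
    (isUnit_comm_of_lift hγ hlift) ?_ (schur_of_lift hγ hres hlift) g hg
  intro σ i j
  have := (maximalIdeal A).sub_mem (hlift σ i j) (hlift' σ i j)
  simpa using this

end Lift

/-! ### Good lifts -/

section Good

variable {𝒪 : Type} [CommRing 𝒪] [IsLocalRing 𝒪]
  {ρbar : ResidualGaloisRep (ResidueField 𝒪)}
  {𝒟 : ∀ ⦃A : Type⦄ [CommRing A] [IsLocalRing A] [Algebra 𝒪 A], GaloisRepAdic A → Prop}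
  {b : Module.Basis (Fin 2) (ResidueField 𝒪) ρbar.V} {γ : Gauge 𝒪}

/-- H0: valid gauge data exist. -/
theorem exists_valid_gauge (ρbar : ResidualGaloisRep (ResidueField 𝒪))
    (habs : ρbar.IsAbsolutelyIrreducible) :
    ∃ (b : Module.Basis (Fin 2) (ResidueField 𝒪) ρbar.V) (γ : Gauge 𝒪), γ.IsValid ρbar b := by
  obtain ⟨b, g₁, g₂, i, j, hschur, h00, h10, hcomm⟩ := H34.exists_gauge_basis ρbar habs
  choose rt hrt using fun (σ : GQ) (i j : Fin 2) => residue_surjective (rbarOf ρbar b σ i j)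
  exact ⟨b, ⟨fun σ => Matrix.of (rt σ), g₁, g₂, i, j⟩,
    ⟨fun σ i j => hrt σ i j, hschur, h00, h10, hcomm⟩⟩

/-- H7: two good lifts with equivalent `ofMat` are equal. -/
theorem good_unique (hγ : γ.IsValid ρbar b)
    (A : Type) [CommRing A] [IsLocalRing A] [Algebra 𝒪 A] [IsLocalHom (algebraMap 𝒪 A)]
    (hres : Function.Surjective (residue A ∘ algebraMap 𝒪 A))
    (r r' : GQ →* M2 A) (hr : IsGood 𝒟 γ A r) (hr' : IsGood 𝒟 γ A r')
    (h : (ofMat r hr.cont).IsEquiv (ofMat r' hr'.cont)) : r = r' := by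
  obtain ⟨g, hg⟩ := exists_conj_of_ofMat_isEquiv hr.cont hr'.cont h
  exact eq_of_conj_of_lift hγ hres hr.lift hr'.lift hr.g00 hr.g10 hr'.g00 hr'.g10
    (hr.gij.trans hr'.gij.symm) g hg

/-- H8: the residual representation of a good lift. -/
theorem good_residual (hγ : γ.IsValid ρbar b)
    (A : Type) [CommRing A] [IsLocalRing A] [Algebra 𝒪 A] [IsLocalHom (algebraMap 𝒪 A)]
    (r : GQ →* M2 A) (hr : IsGood 𝒟 γ A r) :
    (ofMat r hr.cont).residual.IsEquiv
      (ρbar.baseChangeAlong (IsLocalRing.ResidueField.map (algebraMap 𝒪 A))) :=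
  residual_ofMat_isEquiv ρbar b _ r hr.cont (fun σ i j => residue_eq_of_lift hγ hr.lift σ i j)

/-- H9: push-forward of a good lift along a local algebra map: all properties except `cond`
are automatic. -/
theorem good_map_of_cond (A B : Type) [CommRing A] [IsLocalRing A] [Algebra 𝒪 A]
    [CommRing B] [IsLocalRing B] [Algebra 𝒪 B] (φ : A →ₐ[𝒪] B) (hφ : IsLocalHom (φ : A →+* B))
    (r : GQ →* M2 A) (hr : IsGood 𝒟 γ A r)
    (hcond : ∀ hc : MatCont (mapMat (φ : A →+* B) r), 𝒟 (ofMat (mapMat (φ : A →+* B) r) hc)) :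
    IsGood 𝒟 γ B (mapMat (φ : A →+* B) r) where
  lift σ i j := by
    have h1 : mapMat (φ : A →+* B) r σ i j - algebraMap 𝒪 B (γ.rt σ i j) =
        φ (r σ i j - algebraMap 𝒪 A (γ.rt σ i j)) := by
      simp [mapMat_apply]
    rw [h1]
    have := hr.lift σ i j
    rw [mem_maximalIdeal, mem_nonunits_iff] at this ⊢
    intro hu
    exact this (hφ.map_nonunit _ hu)
  g00 := by simp [mapMat_apply, hr.g00]
  g10 := by simp [mapMat_apply, hr.g10]
  gij := by simp [mapMat_apply, hr.gij]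
  cont := matCont_mapMat _ hφ hr.cont
  cond := hcond _

/-- H6: every deformation of type `𝒟` over a complete noetherian local test algebra has a good
lift. -/
theorem exists_good_lift (hγ : γ.IsValid ρbar b) (h𝒟 : GaloisRep.IsDeformationCondition 𝒪 𝒟)
    (A : Type) [CommRing A] [IsLocalRing A] [IsNoetherianRing A]
    [IsAdicComplete (maximalIdeal A) A] [Algebra 𝒪 A] [IsLocalHom (algebraMap 𝒪 A)]
    (hres : Function.Surjective (residue A ∘ algebraMap 𝒪 A))
    (ρA : GaloisRepAdic A) (hρA : 𝒟 ρA)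
    (hresid : ρA.residual.IsEquiv
      (ρbar.baseChangeAlong (IsLocalRing.ResidueField.map (algebraMap 𝒪 A)))) :
    ∃ r : GQ →* M2 A, ∃ hr : IsGood 𝒟 γ A r, (ofMat r hr.cont).IsEquiv ρA := by
  obtain ⟨r, hr, hequiv, hrres⟩ := exists_ofMat_isEquiv ρbar b _ ρA hresid
  -- `r` is a lift
  have hlift : ∀ σ i j, r σ i j - algebraMap 𝒪 A (γ.rt σ i j) ∈ maximalIdeal A := by
    intro σ i j
    rw [← residue_eq_zero_iff, map_sub, hrres σ i j, ← hγ.hrt σ i j, ResidueField.map_residue,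
      sub_self]
  -- first gauge step
  have ha00 : r γ.g₁ 0 0 ∈ maximalIdeal A := by
    rw [← residue_eq_zero_iff, hrres, hγ.h00, map_zero]
  have ha10 : r γ.g₁ 1 0 - 1 ∈ maximalIdeal A := by
    rw [← residue_eq_zero_iff, map_sub, hrres, hγ.h10, map_one, map_one, sub_self]
  obtain ⟨u₁, hu₁, h00, h10⟩ := Gauge.exists_conj_col (r γ.g₁) ha00 ha10
  set r₁ := Gauge.conj u₁ r with hr₁
  have hlift₁ : ∀ σ i j, r₁ σ i j - algebraMap 𝒪 A (γ.rt σ i j) ∈ maximalIdeal A := by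
    intro σ i j
    have := (maximalIdeal A).add_mem (conj_sub_mem u₁ hu₁ r σ i j) (hlift σ i j)
    simpa [hr₁] using this
  -- second gauge step
  obtain ⟨u₂, hu₂, hcomm₂, hij⟩ := Gauge.exists_conj_entry (r₁ γ.g₁) (r₁ γ.g₂) γ.i γ.j
    (algebraMap 𝒪 A (γ.rt γ.g₂ γ.i γ.j)) (hlift₁ γ.g₂ γ.i γ.j) (isUnit_comm_of_lift hγ hlift₁)
  set r₂ := Gauge.conj u₂ r₁ with hr₂
  have hlift₂ : ∀ σ i j, r₂ σ i j - algebraMap 𝒪 A (γ.rt σ i j) ∈ maximalIdeal A := by
    intro σ i j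
    have := (maximalIdeal A).add_mem (conj_sub_mem u₂ hu₂ r₁ σ i j) (hlift₁ σ i j)
    simpa [hr₂] using this
  have hr₂g₁ : r₂ γ.g₁ = r₁ γ.g₁ := by
    rw [hr₂, Gauge.conj_apply, hcomm₂, mul_assoc, Units.mul_inv, mul_one]
  have hc₁ : MatCont r₁ := matCont_conj u₁ hr
  have hc₂ : MatCont r₂ := matCont_conj u₂ hc₁
  have he : (ofMat r₂ hc₂).IsEquiv ρA :=
    isEquiv_trans (isEquiv_symm (isEquiv_trans (ofMat_conj_isEquiv u₁ hr hc₁)
      (ofMat_conj_isEquiv u₂ hc₁ hc₂))) hequiv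
  refine ⟨r₂, ⟨hlift₂, ?_, ?_, hij, hc₂, ?_⟩, he⟩
  · rw [hr₂g₁]; exact h00
  · rw [hr₂g₁]; exact h10
  · exact cond_of_isEquiv h𝒟 A inferInstance hres (isEquiv_symm he) hρA

end Good

end Fermat.Agent.S53
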